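import Fermat.Agent.Galois.Decomposition
import Fermat.Agent.Galois.Cyclotomic
import Fermat.Prelude.Def_ExtCitation_AdmissibleExtension
import Fermat.Prelude.Def_GaloisRep_Flat
import Mathlib.FieldTheory.Finite.Basic

/-!
# Teichmüller representatives and `ζ - 1` at a place over `l`
-/

set_option autoImplicit false

noncomputable section

namespace Fermat.Agent.FFG.OrderL

open IsLocalRing
open Fermat.Agent.Galois (Qbar GalQ)

variable {A : ValuationSubring Qbar} {l : ℕ}

/-- The prime field inside the residue field. -/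
def primeField (hA : A.LiesOverPrime l) [Fact l.Prime] : ZMod l →+* ResidueField A :=
  haveI := Galois.place_charP_residueField hA (Fact.out : l.Prime)
  ZMod.castHom dvd_rfl (ResidueField A)

theorem residue_eq_zero_iff' (x : A) : residue A x = 0 ↔ (x : Qbar) ∈ A.nonunits := by
  rw [residue_eq_zero_iff, A.coe_mem_nonunits_iff]

theorem residue_eq_iff (x y : A) : residue A x = residue A y ↔ (x : Qbar) - y ∈ A.nonunits := by
  rw [← sub_eq_zero, ← map_sub, residue_eq_zero_iff']
  rfl

theorem ratLocalized_mem (hA : A.LiesOverPrime l) [Fact l.Prime]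
    (r : GaloisRep.ratLocalizedAt l) : ((r : ℚ) : Qbar) ∈ A := by
  rw [Galois.place_ratCast_mem_iff hA Fact.out]
  exact fun h => (Fact.out : l.Prime).not_dvd_one
    ((Nat.dvd_gcd h dvd_rfl).trans (dvd_of_eq (Nat.coprime_iff_gcd_eq_one.mp r.2)))

/-- A rational nonunit at a place over `l` is `l` times an element of the place. -/
theorem exists_eq_mul_of_ratCast_mem_nonunits (hA : A.LiesOverPrime l) [Fact l.Prime] {r : ℚ}
    (hr : (r : Qbar) ∈ A.nonunits) : ∃ s : A, (r : Qbar) = (l : Qbar) * s := by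
  have hlp : l.Prime := Fact.out
  have hmem : (r : Qbar) ∈ A := A.nonunits_subset hr
  have hd : ¬ l ∣ r.den := (Galois.place_ratCast_mem_iff hA hlp r).mp hmem
  have hnum : (r.num : Qbar) ∈ A.nonunits := by
    have e : (r.num : Qbar) = r * (r.den : Qbar) := by
      rw [Rat.cast_def, div_mul_cancel₀ _ (Nat.cast_ne_zero.mpr r.den_nz)]
    rw [e, A.mem_nonunits_iff, map_mul]
    exact (mul_le_of_le_one_right' ((A.valuation_le_one_iff _).mpr (natCast_mem A _))).trans_lt
      (A.mem_nonunits_iff.mp hr)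
  obtain ⟨m, hm⟩ := (Galois.place_intCast_mem_nonunits_iff hA hlp r.num).mp hnum
  have hs : (((m : ℚ) / r.den : ℚ) : Qbar) ∈ A := by
    rw [Galois.place_ratCast_mem_iff hA hlp]
    refine fun h => hd (h.trans ?_)
    rw [← Int.natCast_dvd_natCast, ← Int.cast_natCast r.den, ← Rat.divInt_eq_div]
    exact Rat.den_dvd m _
  refine ⟨⟨_, hs⟩, ?_⟩
  have h1 : (r.num : Qbar) = (l : Qbar) * m := by rw [hm]; simp
  change (r : Qbar) = (l : Qbar) * (((m : ℚ) / r.den : ℚ) : Qbar)
  rw [Rat.cast_def, h1]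
  push_cast
  ring

variable [Fact l.Prime]

theorem eq_one_of_pow_eq_one (hA : A.LiesOverPrime l) {x : A} {n : ℕ} (hn : ¬ l ∣ n)
    (hx : x ^ n = 1) (hr : residue A x = 1) : x = 1 := by
  have hgeom : (∑ i ∈ Finset.range n, x ^ i) * (x - 1) = 0 := by rw [geom_sum_mul, hx, sub_self]
  rcases mul_eq_zero.mp hgeom with h | h
  · exfalso
    have := congrArg (residue A) h
    simp only [map_sum, map_pow, hr, one_pow, Finset.sum_const, Finset.card_range, nsmul_eq_mul,
      mul_one, map_zero] at this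
    have := Galois.place_charP_residueField hA (Fact.out : l.Prime)
    exact hn ((CharP.cast_eq_zero_iff (ResidueField A) l n).mp ‹_›)
  · exact sub_eq_zero.mp h

theorem not_dvd_sub_one : ¬ l ∣ l - 1 := fun h => by
  have h2 := (Fact.out : l.Prime).two_le
  have := Nat.le_of_dvd (by omega) h
  omega

/-- Teichmüller representatives of `ZMod l` in a place over `l`. -/
theorem exists_teichmuller (hA : A.LiesOverPrime l) :
    ∃ ω : ZMod l →*₀ A, (∀ a, residue A (ω a) = primeField hA a) ∧
      (∀ a ≠ 0, ω a ^ (l - 1) = 1) ∧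
      ∀ σ ∈ A.inertiaSubgroupIn ℚ, ∀ a, σ (ω a : Qbar) = ω a := by
  classical
  have hlp : l.Prime := Fact.out
  have hlift : ∀ a : ZMod l, a ≠ 0 →
      ∃ b : A, b ^ (l - 1) = 1 ∧ residue A b = primeField hA a := by
    intro a ha
    set f : Polynomial A := Polynomial.X ^ (l - 1) - 1
    obtain ⟨b, hb, hba⟩ := Galois.place_exists_root_sub_mem A f
      (Polynomial.monic_X_pow_sub_C (1 : A) (Nat.sub_pos_of_lt hlp.one_lt).ne')
      (a.val : A) (by
        rw [← residue_eq_zero_iff]
        simp only [f, Polynomial.eval_sub, Polynomial.eval_pow, Polynomial.eval_X,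
          Polynomial.eval_one, map_sub, map_pow, map_one, map_natCast]
        rw [← map_natCast (primeField hA), ZMod.natCast_zmod_val, ← map_pow,
          ZMod.pow_card_sub_one_eq_one ha, map_one, sub_self])
      (by
        rw [show f = Polynomial.X ^ (l - 1) - Polynomial.C (1 : A) from rfl,
          Polynomial.natDegree_X_pow_sub_C]
        exact (Nat.sub_pos_of_lt hlp.one_lt).ne')
    refine ⟨b, ?_, ?_⟩
    · have := hb.eq_zero
      simpa [f, sub_eq_zero] using this
    · rw [← residue_eq_zero_iff, map_sub, sub_eq_zero, map_natCast] at hba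
      rw [hba, ← map_natCast (primeField hA), ZMod.natCast_zmod_val]
  choose w hw1 hw2 using hlift
  set ω : ZMod l → A := fun a => if h : a = 0 then 0 else w a h
  have hω0 : ω 0 = 0 := dif_pos rfl
  have hne : ∀ {a} (h : a ≠ 0), ω a = w a h := fun h => dif_neg h
  have hpow : ∀ a ≠ 0, ω a ^ (l - 1) = 1 := fun a h => by rw [hne h, hw1]
  have hres : ∀ a, residue A (ω a) = primeField hA a := by
    intro a
    by_cases h : a = 0
    · rw [h, hω0, map_zero, map_zero]
    · rw [hne h, hw2]
  have huniq : ∀ {x y : A}, x ^ (l - 1) = 1 → y ^ (l - 1) = 1 → residue A x = residue A y →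
      x = y := by
    intro x y hx hy h
    have hy' : y * y ^ (l - 2) = 1 := by
      rw [← pow_succ', show l - 2 + 1 = l - 1 by have := hlp.two_le; omega, hy]
    have h1 : x * y ^ (l - 2) = 1 := eq_one_of_pow_eq_one hA (not_dvd_sub_one (l := l))
      (by rw [mul_pow, hx, one_mul, pow_right_comm, hy, one_pow])
      (by rw [map_mul, h, ← map_mul, hy', map_one])
    calc x = x * (y * y ^ (l - 2)) := by rw [hy', mul_one]
      _ = y * (x * y ^ (l - 2)) := by ring
      _ = y := by rw [h1, mul_one]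
  refine ⟨{ toFun := ω
            map_zero' := hω0
            map_one' := huniq (hpow 1 one_ne_zero) (one_pow _)
              (by rw [hres, map_one, map_one])
            map_mul' := fun a b => ?_ }, hres, hpow, fun σ hσ a => ?_⟩
  · rcases eq_or_ne a 0 with rfl | ha
    · simp [hω0]
    rcases eq_or_ne b 0 with rfl | hb
    · simp [hω0]
    exact huniq (hpow _ (mul_ne_zero ha hb)) (by rw [mul_pow, hpow a ha, hpow b hb, one_mul])
      (by rw [map_mul, hres, hres, hres, map_mul])
  · change σ (ω a : Qbar) = ω a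
    rcases eq_or_ne a 0 with rfl | ha
    · simp [hω0]
    have hmem : σ (ω a : Qbar) ∈ A :=
      Galois.decomposition_apply_mem (Galois.inertia_le_decomposition A hσ) (ω a).2
    have h := huniq (x := ⟨_, hmem⟩) (y := ω a) (Subtype.ext ?_) (hpow a ha)
      ((residue_eq_iff _ _).mpr (Galois.inertia_sub_mem_nonunits hσ (ω a).2))
    · exact congrArg Subtype.val h
    · have h' := congrArg (Subtype.val : A → Qbar) (hpow a ha)
      rw [SubmonoidClass.coe_pow, OneMemClass.coe_one] at h'
      rw [SubmonoidClass.coe_pow, ← map_pow, h', map_one, OneMemClass.coe_one]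

theorem residue_rootOfUnity (hA : A.LiesOverPrime l) {z : A} (hz : z ^ l = 1) :
    residue A z = 1 := by
  have := Galois.place_charP_residueField hA (Fact.out : l.Prime)
  exact frobenius_inj (ResidueField A) l
    (by simp only [frobenius_def, ← map_pow, hz, map_one])

theorem exists_pow_sub_one_eq (hA : A.LiesOverPrime l) {ζ : Qbar} (hζ : IsPrimitiveRoot ζ l)
    (i : ℕ) : ∃ g : A, ζ ^ i - 1 = (ζ - 1) * g ∧ residue A g = (i : ResidueField A) := by
  have hζA : ζ ∈ A :=
    Galois.place_mem_of_isIntegral A (hζ.isIntegral (Fact.out : l.Prime).pos)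
  set z : A := ⟨ζ, hζA⟩
  have hz : z ^ l = 1 := Subtype.ext (by simpa [z] using hζ.pow_eq_one)
  refine ⟨∑ j ∈ Finset.range i, z ^ j, ?_, by simp [map_sum, residue_rootOfUnity hA hz]⟩
  rw [mul_comm, AddSubmonoidClass.coe_finsetSum]
  simp only [SubmonoidClass.coe_pow, z]
  exact (geom_sum_mul ζ i).symm

/-- At a place over `l` the element `ζ - 1` has valuation `v(l)/(l-1)`. -/
theorem valuation_zeta_sub_one (hA : A.LiesOverPrime l) {ζ : Qbar} (hζ : IsPrimitiveRoot ζ l) :
    A.valuation (ζ - 1) ^ (l - 1) = A.valuation (l : Qbar) := by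
  have hlp : l.Prime := Fact.out
  have := Galois.place_charP_residueField hA hlp
  obtain ⟨n, hn⟩ := Nat.exists_eq_succ_of_ne_zero hlp.ne_zero
  have hζ' : IsPrimitiveRoot ζ (n + 1) := by rwa [← Nat.succ_eq_add_one, ← hn]
  have hprod := hζ'.prod_one_sub_pow_eq_order
  rw [← Nat.cast_add_one, ← Nat.succ_eq_add_one, ← hn] at hprod
  rw [← hprod, map_prod, show l - 1 = (Finset.range n).card by simp [hn], ← Finset.prod_const]
  refine Finset.prod_congr rfl fun k hk => ?_
  obtain ⟨g, hg, hgr⟩ := exists_pow_sub_one_eq hA hζ (k + 1)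
  rw [Valuation.map_sub_swap A.valuation 1, hg, map_mul]
  have hg1 : A.valuation (g : Qbar) = 1 := by
    refine ((A.valuation_le_one_iff _).mpr g.2).antisymm (not_lt.mp fun h => ?_)
    have h0 := (residue_eq_zero_iff' g).mpr (A.mem_nonunits_iff.mpr h)
    rw [hgr, CharP.cast_eq_zero_iff (ResidueField A) l] at h0
    have := Nat.le_of_dvd (Nat.succ_pos k) h0
    rw [Finset.mem_range] at hk
    omega
  rw [hg1, mul_one]

theorem apply_primitiveRoot {ζ : Qbar} (hζ : IsPrimitiveRoot ζ l) (σ : GalQ) :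
    σ ζ = ζ ^ ExtCitation.cycloExp l σ := by
  have hlp : l.Prime := Fact.out
  have : NeZero l := ⟨hlp.ne_zero⟩
  exact modularCyclotomicCharacter.spec Qbar (ExtCitation.card_rootsOfUnity_eq_self l)
    (σ : Qbar ≃+* Qbar) (t := Units.ofPowEqOne ζ l hζ.pow_eq_one hlp.ne_zero)
    ((mem_rootsOfUnity _ _).mpr (Units.pow_ofPowEqOne hζ.pow_eq_one hlp.ne_zero))

/-- An inertia element multiplies `ζ - 1` by a unit congruent to the cyclotomic exponent. -/
theorem exists_apply_zeta_sub_one (hA : A.LiesOverPrime l) {ζ : Qbar} (hζ : IsPrimitiveRoot ζ l)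
    (σ : GalQ) : ∃ g : A, σ (ζ - 1) = (ζ - 1) * g ∧
      residue A g = primeField hA (ExtCitation.cycloExp l σ : ZMod l) := by
  obtain ⟨g, hg, hgr⟩ := exists_pow_sub_one_eq hA hζ (ExtCitation.cycloExp l σ)
  exact ⟨g, by rw [map_sub, map_one, apply_primitiveRoot hζ, hg], by rw [hgr, map_natCast]⟩

/-- For odd `l` some inertia element moves the `l`-th roots of unity. -/
theorem exists_inertia_cycloExp_ne_one (hA : A.LiesOverPrime l) (hl2 : l ≠ 2) :
    ∃ σ ∈ A.inertiaSubgroupIn ℚ, (ExtCitation.cycloExp l σ : ZMod l) ≠ 1 := by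
  have hlp : l.Prime := Fact.out
  have : NeZero (l ^ 1) := ⟨by rw [pow_one]; exact hlp.ne_zero⟩
  obtain ⟨ζ, hζ⟩ := HasEnoughRootsOfUnity.exists_primitiveRoot Qbar l
  have hζ1 : IsPrimitiveRoot ζ (l ^ 1) := by rwa [pow_one]
  obtain ⟨σ, hσ, hu⟩ := Galois.exists_inertia_modularCyclotomicCharacter_eq hA hlp 1
    hζ1.card_rootsOfUnity (-1)
  refine ⟨σ, hσ, fun h1 => ?_⟩
  have h := modularCyclotomicCharacter.spec Qbar hζ1.card_rootsOfUnity (σ : Qbar ≃+* Qbar)
    (t := Units.ofPowEqOne ζ (l ^ 1) hζ1.pow_eq_one (pow_ne_zero _ hlp.ne_zero))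
    ((mem_rootsOfUnity _ _).mpr (Units.pow_ofPowEqOne _ _))
  rw [hu] at h
  change σ ζ = ζ ^ ((-1 : (ZMod (l ^ 1))ˣ) : ZMod (l ^ 1)).val at h
  rw [apply_primitiveRoot hζ] at h
  have hv : ((-1 : (ZMod (l ^ 1))ˣ) : ZMod (l ^ 1)).val = l - 1 := by
    obtain ⟨n, hn⟩ := Nat.exists_eq_succ_of_ne_zero hlp.ne_zero
    rw [pow_one]
    subst hn
    simp [ZMod.val_neg_one]
  rw [hv] at h
  have hlt : ExtCitation.cycloExp l σ < l := by
    have : NeZero l := ⟨hlp.ne_zero⟩
    exact ZMod.val_lt _
  have h' := congrArg (fun n : ℕ => (n : ZMod l))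
    (hζ.pow_inj hlt (Nat.sub_lt hlp.pos one_pos) h)
  rw [h1, Nat.cast_sub hlp.one_le, ZMod.natCast_self, zero_sub, Nat.cast_one] at h'
  have h2 : ((2 : ℕ) : ZMod l) = 0 := by push_cast; linear_combination h'
  exact hl2 ((Nat.prime_dvd_prime_iff_eq hlp Nat.prime_two).mp
    ((ZMod.natCast_eq_zero_iff _ _).mp h2))

end Fermat.Agent.FFG.OrderL
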