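import Fermat.Agent.FFG.Closure
import Fermat.Agent.FFG.OrderL.Teich

/-!
# The connected part of a finite flat model at a place

For a model `B` of a Galois module `M` over `ℤ_(l)` and a place `A` over `l`, the connected part is
the group of points congruent to the origin modulo the maximal ideal. It is stable under the
decomposition group, inertia acts trivially modulo it, and it is functorial.
-/

set_option autoImplicit false

noncomputable section

namespace Fermat.Agent.FFG.OrderL

open IsLocalRing
open Fermat.Agent.Galois (Qbar GalQ)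

variable {l : ℕ} {M N : Type} [AddCommGroup M] [AddCommGroup N]
  {act : GalQ → M → M} {actN : GalQ → N → N}
  {B : Subalgebra (GaloisRep.ratLocalizedAt l) (M → Qbar)}
  {A : ValuationSubring Qbar}

/-- A model over `ℤ_(l)` inside the functions to `ℚ̄`. -/
abbrev IsModelAt (l : ℕ) {M : Type} [AddCommGroup M] (act : GalQ → M → M)
    (B : Subalgebra (GaloisRep.ratLocalizedAt l) (M → Qbar)) : Prop :=
  IsModel ℚ act B

variable [Fact l.Prime]

theorem apply_mem_place (hA : A.LiesOverPrime l) (hB : IsModelAt l act B) {f : M → Qbar}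
    (hf : f ∈ B) (x : M) : f x ∈ A := by
  have := hB.finite
  obtain ⟨P, hPm, hP⟩ := (Algebra.IsIntegral.isIntegral
    (R := GaloisRep.ratLocalizedAt l) (⟨f, hf⟩ : B)).map
    ((Pi.evalAlgHom (GaloisRep.ratLocalizedAt l) (fun _ : M => Qbar) x).comp B.val)
  let φ : GaloisRep.ratLocalizedAt l →+* A :=
    (algebraMap (GaloisRep.ratLocalizedAt l) Qbar).codRestrict A.toSubring fun r => by
      rw [IsScalarTower.algebraMap_apply (GaloisRep.ratLocalizedAt l) ℚ Qbar, eq_ratCast]
      exact ratLocalized_mem hA r
  have hint : IsIntegral A (f x) := by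
    refine ⟨P.map φ, hPm.map _, ?_⟩
    rw [Polynomial.eval₂_map]
    exact hP
  obtain ⟨y, hy⟩ := IsIntegrallyClosed.isIntegral_iff.mp hint
  exact hy ▸ y.2

/-- Residue of the value of a function of the model. -/
def reduce (hA : A.LiesOverPrime l) (hB : IsModelAt l act B) (x : M) : B →+* ResidueField A :=
  (residue A).comp
    (((Pi.evalRingHom (fun _ : M => Qbar) x).comp B.val.toRingHom).codRestrict A.toSubring
      fun f => apply_mem_place hA hB f.2 x)

omit [Fact l.Prime] in
/-- `x` is congruent to the origin. -/
def InConnected (A : ValuationSubring Qbar)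
    (B : Subalgebra (GaloisRep.ratLocalizedAt l) (M → Qbar)) (x : M) : Prop :=
  ∀ f ∈ B, f x - f 0 ∈ A.nonunits

theorem reduce_eq_iff (hA : A.LiesOverPrime l) (hB : IsModelAt l act B) {x y : M} :
    reduce hA hB x = reduce hA hB y ↔ ∀ f ∈ B, f x - f y ∈ A.nonunits := by
  constructor
  · intro h f hf
    exact (residue_eq_iff _ _).mp (DFunLike.congr_fun h ⟨f, hf⟩)
  · intro h
    ext f
    exact (residue_eq_iff _ _).mpr (h f f.2)

theorem reduce_add_eq (hA : A.LiesOverPrime l) (hB : IsModelAt l act B) {x x' y y' : M}
    (hx : reduce hA hB x = reduce hA hB x') (hy : reduce hA hB y = reduce hA hB y') :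
    reduce hA hB (x + y) = reduce hA hB (x' + y') := by
  ext f
  obtain ⟨t, ht⟩ := hB.exists_tensor f.2
  have key : ∀ (t : TensorProduct (GaloisRep.ratLocalizedAt l) B B) (z w : M),
      tmap B.val B.val t (z, w) ∈ A := by
    intro t z w
    induction t using TensorProduct.induction_on with
    | zero => simp
    | tmul u v =>
      rw [tmap_tmul]
      exact mul_mem (apply_mem_place hA hB u.2 z) (apply_mem_place hA hB v.2 w)
    | add a b ha hb => rw [map_add, Pi.add_apply]; exact add_mem ha hb
  have h : residue A ⟨_, key t x y⟩ = residue A ⟨_, key t x' y'⟩ := by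
    clear ht
    induction t using TensorProduct.induction_on with
    | zero => simp
    | tmul u v =>
      have e : ∀ z w : M, residue A ⟨_, key (u ⊗ₜ v) z w⟩ =
          reduce hA hB z u * reduce hA hB w v := by
        intro z w
        rw [reduce, reduce, RingHom.comp_apply, RingHom.comp_apply, ← map_mul]
        exact congrArg (residue A) (Subtype.ext (tmap_tmul B.val B.val u v z w))
      rw [e, e, hx, hy]
    | add a b ha hb =>
      have e : ∀ z w : M, residue A ⟨_, key (a + b) z w⟩ =
          residue A ⟨_, key a z w⟩ + residue A ⟨_, key b z w⟩ := by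
        intro z w
        rw [← map_add]
        refine congrArg (residue A) (Subtype.ext ?_)
        simp
      rw [e, e, ha, hb]
  have h' := (residue_eq_iff _ _).mp h
  simp only [ht] at h'
  exact (residue_eq_iff _ _).mpr h'

/-- The connected part: points congruent to the origin. -/
def connPart (hA : A.LiesOverPrime l) (hB : IsModelAt l act B) : AddSubgroup M where
  carrier := {x | reduce hA hB x = reduce hA hB 0}
  zero_mem' := rfl
  add_mem' {x y} hx hy := (reduce_add_eq hA hB hx hy).trans (by rw [add_zero])
  neg_mem' {x} hx := by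
    have h := reduce_add_eq hA hB hx (rfl : reduce hA hB (-x) = reduce hA hB (-x))
    rw [add_neg_cancel, zero_add] at h
    exact h.symm

theorem mem_connPart_iff (hA : A.LiesOverPrime l) (hB : IsModelAt l act B) {x : M} :
    x ∈ connPart hA hB ↔ InConnected A B x :=
  reduce_eq_iff hA hB

theorem act_mem_connPart (hA : A.LiesOverPrime l) (hB : IsModelAt l act B) {σ : GalQ}
    (hσ : σ ∈ A.decompositionSubgroup ℚ) {x : M} (hx : x ∈ connPart hA hB) :
    act σ x ∈ connPart hA hB := by
  rw [mem_connPart_iff] at *
  intro f hf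
  rw [← hB.act_zero σ, hB.equivariant f hf, hB.equivariant f hf, ← map_sub,
    Galois.decomposition_apply_mem_nonunits_iff hσ]
  exact hx f hf

theorem act_sub_mem_connPart (hA : A.LiesOverPrime l) (hB : IsModelAt l act B) {σ : GalQ}
    (hσ : σ ∈ A.inertiaSubgroupIn ℚ) (x : M) : act σ x - x ∈ connPart hA hB := by
  have h : reduce hA hB (act σ x) = reduce hA hB x := (reduce_eq_iff hA hB).mpr fun f hf => by
    rw [hB.equivariant f hf]
    exact Galois.inertia_sub_mem_nonunits hσ (apply_mem_place hA hB hf x)
  have h' := reduce_add_eq hA hB h (rfl : reduce hA hB (-x) = reduce hA hB (-x))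
  rw [← sub_eq_add_neg, add_neg_cancel] at h'
  exact h'

/-- Restriction to a subgroup. -/
theorem connPart_comap (hA : A.LiesOverPrime l) (hB : IsModelAt l act B) (f : N →+ M)
    (hB' : IsModelAt l actN (B.map (pull (GaloisRep.ratLocalizedAt l) Qbar f))) :
    connPart hA hB' = (connPart hA hB).comap f := by
  ext x
  rw [AddSubgroup.mem_comap, mem_connPart_iff, mem_connPart_iff]
  constructor
  · intro h g hg
    have := h _ ⟨g, hg, rfl⟩
    simpa using this
  · rintro h _ ⟨g, hg, rfl⟩
    simpa using h g hg

/-- Image in a quotient. -/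
theorem map_connPart_le (hA : A.LiesOverPrime l) (hB : IsModelAt l act B) (π : M →+ N)
    (hB' : IsModelAt l actN (B.comap (pull (GaloisRep.ratLocalizedAt l) Qbar π))) :
    (connPart hA hB).map π ≤ connPart hA hB' := by
  rintro _ ⟨x, hx, rfl⟩
  rw [SetLike.mem_coe, mem_connPart_iff] at hx
  rw [mem_connPart_iff]
  intro f hf
  simpa using hx _ hf

end Fermat.Agent.FFG.OrderL
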