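import Fermat.Agent.FFG.OrderL.Connected
import Fermat.Agent.FFG.RatLocal
import Mathlib.GroupTheory.SpecificGroups.Cyclic
import Mathlib.FieldTheory.Galois.Infinite

/-!
# Flat models of order `l` over `ℤ_(l)`

An elementary form of the Oort–Tate classification: if a Galois module of prime order `l` has a
finite flat model over `ℤ_(l)`, then at a place over `l` inertia acts either trivially (the model
is étale there) or through the cyclotomic character (the model is connected there).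

Proof: decompose the functions of the model in the characters `a ↦ ω(a)^k` of `(ℤ/l)ˣ`; with
`C k` the ideal of coefficients in degree `k`, the comultiplication gives `C k ⊆ (C 1)^k` and
`l • C 1 ⊆ C 1 * C (l-1)`, and rationality gives `C (l-1) ⊆ (l)`; so `C 1 = (c)` with
`c^(l-1)` a unit multiple of `l`, and inertia acts on `c` as on `ζ - 1`.
-/

set_option autoImplicit false

noncomputable section

namespace Fermat.Agent.FFG.OrderL

open IsLocalRing
open Fermat.Agent.Galois (Qbar GalQ)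

namespace Dichotomy

variable {l : ℕ} [Fact l.Prime] {M : Type} [AddCommGroup M] {act : GalQ → M → M}
  {B : Subalgebra (GaloisRep.ratLocalizedAt l) (M → Qbar)} {A : ValuationSubring Qbar}
  (hA : A.LiesOverPrime l) (hB : IsModelAt l act B) (e : ZMod l ≃+ M) (ω : ZMod l →*₀ A)

/-- A function of the model, read on `ℤ/l`, with values in the place. -/
def hat : B →+* (ZMod l → A) :=
  RingHom.pi fun a : ZMod l =>
    ((Pi.evalRingHom (fun _ : M => Qbar) (e a)).comp B.val.toRingHom).codRestrict A.toSubring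
      fun f => apply_mem_place hA hB f.2 (e a)

@[simp] theorem coe_hat (f : B) (a : ZMod l) :
    (hat hA hB e f a : Qbar) = (f : M → Qbar) (e a) := rfl

/-- The `A`-span of the functions of the model. -/
def funSpan : Submodule A (ZMod l → A) := Submodule.span A (Set.range (hat hA hB e))

theorem hat_mem (f : B) : hat hA hB e f ∈ funSpan hA hB e := Submodule.subset_span ⟨f, rfl⟩

theorem one_mem_funSpan : (1 : ZMod l → A) ∈ funSpan hA hB e := by
  rw [← map_one (hat hA hB e)]
  exact hat_mem hA hB e 1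

theorem mul_mem_funSpan {g h : ZMod l → A} (hg : g ∈ funSpan hA hB e)
    (hh : h ∈ funSpan hA hB e) : g * h ∈ funSpan hA hB e := by
  induction hg using Submodule.span_induction with
  | mem x hx =>
    induction hh using Submodule.span_induction with
    | mem y hy =>
      obtain ⟨f, rfl⟩ := hx
      obtain ⟨f', rfl⟩ := hy
      rw [← map_mul]
      exact hat_mem hA hB e _
    | zero => rw [mul_zero]; exact zero_mem _
    | add y z _ _ hy hz => rw [mul_add]; exact add_mem hy hz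
    | smul r y _ hy => rw [mul_smul_comm]; exact Submodule.smul_mem _ r hy
  | zero => rw [zero_mul]; exact zero_mem _
  | add x y _ _ hx hy => rw [add_mul]; exact add_mem hx hy
  | smul r x _ hx => rw [smul_mul_assoc]; exact Submodule.smul_mem _ r hx

theorem pow_mem_funSpan {g : ZMod l → A} (hg : g ∈ funSpan hA hB e) :
    ∀ k : ℕ, g ^ k ∈ funSpan hA hB e
  | 0 => by rw [pow_zero]; exact one_mem_funSpan hA hB e
  | k + 1 => by rw [pow_succ]; exact mul_mem_funSpan hA hB e (pow_mem_funSpan hg k) hg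

theorem dilate_mem_funSpan (c : ZMod l) {g : ZMod l → A} (hg : g ∈ funSpan hA hB e) :
    (fun a => g (c * a)) ∈ funSpan hA hB e := by
  have : funSpan hA hB e ≤ (funSpan hA hB e).comap (LinearMap.funLeft A A (c * ·)) := by
    refine Submodule.span_le.mpr ?_
    rintro _ ⟨f, rfl⟩
    refine Submodule.subset_span ⟨⟨_, hB.pull_nsmul_mem c.val f.2⟩, ?_⟩
    ext a
    simp [LinearMap.funLeft_apply, ← map_nsmul, nsmul_eq_mul]
  exact this hg

/-- The degree-`k` character. -/
def psi (k : ℕ) : ZMod l → A := fun a => ω a ^ k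

/-- The degree-`k` coefficient functional. -/
def coeff (k : ℕ) : (ZMod l → A) →ₗ[A] A :=
  ∑ u : (ZMod l)ˣ, ω ((u⁻¹ : (ZMod l)ˣ) : ZMod l) ^ k •
    (LinearMap.proj (R := A) (φ := fun _ : ZMod l => A) (u : ZMod l) - LinearMap.proj 0)

theorem coeff_apply (k : ℕ) (g : ZMod l → A) : coeff ω k g =
    ∑ u : (ZMod l)ˣ, ω ((u⁻¹ : (ZMod l)ˣ) : ZMod l) ^ k * (g (u : ZMod l) - g 0) := by
  simp [coeff, LinearMap.sum_apply, -Units.val_inv_eq_inv_val]

/-- The ideal of degree-`k` coefficients. -/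
def coeffIdeal (k : ℕ) : Ideal A := (funSpan hA hB e).map (coeff ω k)

theorem coeff_smul_psi_mem {k : ℕ} (hk : k ≠ 0) {g : ZMod l → A}
    (hg : g ∈ funSpan hA hB e) : coeff ω k g • psi ω k ∈ funSpan hA hB e := by
  have : coeff ω k g • psi ω k = ∑ u : (ZMod l)ˣ, ω ((u⁻¹ : (ZMod l)ˣ) : ZMod l) ^ k •
      ((fun a => g ((u : ZMod l) * a)) - g 0 • 1) := by
    funext a
    simp only [Pi.smul_apply, psi, smul_eq_mul, Finset.sum_apply, Pi.sub_apply, Pi.one_apply,
      mul_one, coeff_apply]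
    rcases eq_or_ne a 0 with rfl | ha
    · simp [hk, -Units.val_inv_eq_inv_val]
    · obtain ⟨w, rfl⟩ := ha.isUnit
      rw [Finset.sum_mul]
      refine (Fintype.sum_equiv (Equiv.mulRight w) _ _ fun u => ?_).symm
      have hw : (((u * w)⁻¹ : (ZMod l)ˣ) : ZMod l) * (w : ZMod l) = ((u⁻¹ : (ZMod l)ˣ) : ZMod l) := by
        rw [← Units.val_mul]
        congr 1
        rw [mul_inv_rev, mul_comm w⁻¹, inv_mul_cancel_right]
      rw [Equiv.coe_mulRight, ← hw, map_mul, mul_pow, Units.val_mul]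
      ring
  rw [this]
  refine sum_mem fun u _ => Submodule.smul_mem _ _ (sub_mem (dilate_mem_funSpan hA hB e _ hg) ?_)
  exact Submodule.smul_mem _ _ (one_mem_funSpan hA hB e)

theorem smul_psi_mem {k : ℕ} (hk : k ≠ 0) {r : A} (hr : r ∈ coeffIdeal hA hB e ω k) :
    r • psi ω k ∈ funSpan hA hB e := by
  obtain ⟨g, hg, rfl⟩ := hr
  exact coeff_smul_psi_mem hA hB e ω hk hg

/-- The functional of bidegree `(i, j)` on functions of two variables. -/
def coeff₂ (i j : ℕ) : (ZMod l × ZMod l → A) →ₗ[A] A :=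
  ∑ u : (ZMod l)ˣ, ∑ v : (ZMod l)ˣ,
    (ω ((u⁻¹ : (ZMod l)ˣ) : ZMod l) ^ i * ω ((v⁻¹ : (ZMod l)ˣ) : ZMod l) ^ j) •
      (LinearMap.proj (R := A) (φ := fun _ : ZMod l × ZMod l => A) ((u : ZMod l), (v : ZMod l)) -
        LinearMap.proj ((u : ZMod l), 0) - LinearMap.proj (0, (v : ZMod l)) + LinearMap.proj (0, 0))

theorem coeff₂_apply (i j : ℕ) (H : ZMod l × ZMod l → A) : coeff₂ ω i j H =
    ∑ u : (ZMod l)ˣ, ∑ v : (ZMod l)ˣ,
      (ω ((u⁻¹ : (ZMod l)ˣ) : ZMod l) ^ i * ω ((v⁻¹ : (ZMod l)ˣ) : ZMod l) ^ j) *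
        (H ((u : ZMod l), (v : ZMod l)) - H ((u : ZMod l), 0) - H (0, (v : ZMod l)) + H (0, 0)) := by
  simp [coeff₂, LinearMap.sum_apply, mul_add, -Units.val_inv_eq_inv_val]

theorem coeff₂_prod (i j : ℕ) (g h : ZMod l → A) :
    coeff₂ ω i j (fun z => g z.1 * h z.2) = coeff ω i g * coeff ω j h := by
  rw [coeff₂_apply, coeff_apply, coeff_apply, Finset.sum_mul_sum]
  exact Finset.sum_congr rfl fun u _ => Finset.sum_congr rfl fun v _ => by ring

/-- The comultiplication bounds the coefficient ideals. -/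
theorem coeff₂_add_mem (i j : ℕ) {g : ZMod l → A} (hg : g ∈ funSpan hA hB e) :
    coeff₂ ω i j (fun z => g (z.1 + z.2)) ∈
      coeffIdeal hA hB e ω i * coeffIdeal hA hB e ω j := by
  have : funSpan hA hB e ≤ Submodule.comap
      ((coeff₂ ω i j).comp (LinearMap.funLeft A A fun z : ZMod l × ZMod l => z.1 + z.2))
      (coeffIdeal hA hB e ω i * coeffIdeal hA hB e ω j) := by
    refine Submodule.span_le.mpr ?_
    rintro _ ⟨f, rfl⟩
    obtain ⟨t, ht⟩ := hB.exists_tensor f.2
    rw [SetLike.mem_coe, Submodule.mem_comap, LinearMap.comp_apply]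
    have hH : ∀ t : TensorProduct (GaloisRep.ratLocalizedAt l) B B,
        ∃ H : ZMod l × ZMod l → A, (∀ z, (H z : Qbar) = tmap B.val B.val t (e z.1, e z.2)) ∧
          coeff₂ ω i j H ∈ coeffIdeal hA hB e ω i * coeffIdeal hA hB e ω j := by
      intro t
      induction t using TensorProduct.induction_on with
      | zero => exact ⟨0, fun z => by simp, by rw [map_zero]; exact zero_mem _⟩
      | tmul u v =>
        refine ⟨fun z => hat hA hB e u z.1 * hat hA hB e v z.2, fun z => by simp, ?_⟩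
        rw [coeff₂_prod]
        exact Ideal.mul_mem_mul ⟨_, hat_mem hA hB e u, rfl⟩ ⟨_, hat_mem hA hB e v, rfl⟩
      | add a b ha hb =>
        obtain ⟨Ha, ha1, ha2⟩ := ha
        obtain ⟨Hb, hb1, hb2⟩ := hb
        exact ⟨Ha + Hb, fun z => by simp [ha1, hb1], by rw [map_add]; exact add_mem ha2 hb2⟩
    obtain ⟨H, hH1, hH2⟩ := hH t
    convert! hH2 using 2
    funext z
    exact Subtype.ext (by rw [LinearMap.funLeft_apply, coe_hat, hH1, ht, map_add])
  exact this hg

theorem coeffIdeal_mul_le {i j k : ℕ} (hk : k ≠ 0) {r : A}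
    (hr : r ∈ coeffIdeal hA hB e ω k) :
    r * coeff₂ ω i j (fun z => psi ω k (z.1 + z.2)) ∈
      coeffIdeal hA hB e ω i * coeffIdeal hA hB e ω j := by
  have h := coeff₂_add_mem hA hB e ω i j (smul_psi_mem hA hB e ω hk hr)
  have he : (fun z : ZMod l × ZMod l => (r • psi ω k) (z.1 + z.2)) =
      r • fun z : ZMod l × ZMod l => psi ω k (z.1 + z.2) := rfl
  rwa [he, map_smul, smul_eq_mul] at h

variable {ω}

theorem psi_add_coeff (hω : ∀ a ≠ 0, ω a ^ (l - 1) = 1) :
    coeff₂ ω 1 (l - 1) (fun z => psi ω 1 (z.1 + z.2)) = -((l - 1 : ℕ) * (l : A)) := by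
  classical
  have hcard : (Fintype.card (ZMod l)ˣ : A) = ((l - 1 : ℕ) : A) := by rw [ZMod.card_units]
  have hv : ∀ v : (ZMod l)ˣ, ω ((v⁻¹ : (ZMod l)ˣ) : ZMod l) ^ (l - 1) = 1 :=
    fun v => hω _ (Units.ne_zero _)
  rw [coeff₂_apply]
  simp only [psi, pow_one, hv, mul_one, add_zero, zero_add, map_zero]
  have hsum : ∀ g : ZMod l → A, ∑ v : (ZMod l)ˣ, g (v : ZMod l) = ∑ a, g a - g 0 := by
    intro g
    rw [← Finset.sum_erase_eq_sub (Finset.mem_univ (0 : ZMod l))]
    refine Finset.sum_bij (fun v _ => (v : ZMod l)) (fun v _ => ?_) (fun _ _ _ _ h => Units.ext h)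
      (fun a ha => ?_) (fun v _ => rfl)
    · exact Finset.mem_erase.mpr ⟨v.ne_zero, Finset.mem_univ _⟩
    · exact ⟨Units.mk0 a (Finset.ne_of_mem_erase ha), Finset.mem_univ _, rfl⟩
  have hinner : ∀ u : (ZMod l)ˣ, ∑ v : (ZMod l)ˣ,
      ω ((u⁻¹ : (ZMod l)ˣ) : ZMod l) * (ω ((u : ZMod l) + v) - ω u - ω v) = -(l : A) := by
    intro u
    rw [← Finset.mul_sum, Finset.sum_sub_distrib, Finset.sum_sub_distrib, Finset.sum_const,
      Finset.card_univ, nsmul_eq_mul, hcard, hsum fun a => ω ((u : ZMod l) + a), hsum fun a => ω a,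
      show ∑ a, ω ((u : ZMod l) + a) = ∑ a, ω a from
        Fintype.sum_equiv (Equiv.addLeft (u : ZMod l)) _ _ fun _ => rfl]
    have hu : ω ((u⁻¹ : (ZMod l)ˣ) : ZMod l) * ω (u : ZMod l) = 1 := by
      rw [← map_mul, ← Units.val_mul, inv_mul_cancel, Units.val_one, map_one]
    have hl : ((l - 1 : ℕ) : A) + 1 = (l : A) := by
      rw [← Nat.cast_add_one, Nat.sub_add_cancel (Fact.out : l.Prime).one_le]
    rw [add_zero, map_zero, sub_zero]
    linear_combination (-(((l - 1 : ℕ) : A) + 1)) * hu - hl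
  rw [Finset.sum_congr rfl fun u _ => hinner u, Finset.sum_const, Finset.card_univ, nsmul_eq_mul,
    hcard, mul_neg]

theorem field_sum_eq {k : ℕ} (hk : 2 ≤ k) (hk' : k ≤ l - 1) :
    ∑ u : (ZMod l)ˣ, ∑ v : (ZMod l)ˣ,
      ((u⁻¹ : (ZMod l)ˣ) : ZMod l) * ((v⁻¹ : (ZMod l)ˣ) : ZMod l) ^ (k - 1) *
        (((u : ZMod l) + v) ^ k - (u : ZMod l) ^ k - (v : ZMod l) ^ k) = (k : ZMod l) := by
  classical
  set n := l - 1 with hn
  have hq : Fintype.card (ZMod l) - 1 = n := by rw [ZMod.card]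
  have hpow : ∀ i : ℕ, (∑ x : (ZMod l)ˣ, (x : ZMod l) ^ i) = if n ∣ i then -1 else 0 := by
    intro i
    have := FiniteField.sum_pow_units (ZMod l) i
    rw [hq] at this
    simpa using this
  have hfl : ∀ x : (ZMod l)ˣ, (x : ZMod l) ^ n = 1 := fun x =>
    ZMod.pow_card_sub_one_eq_one x.ne_zero
  have hstep : ∀ u : (ZMod l)ˣ, ∑ v : (ZMod l)ˣ,
      ((u⁻¹ : (ZMod l)ˣ) : ZMod l) * ((v⁻¹ : (ZMod l)ˣ) : ZMod l) ^ (k - 1) *
        (((u : ZMod l) + v) ^ k - (u : ZMod l) ^ k - (v : ZMod l) ^ k) =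
      ∑ w : (ZMod l)ˣ, (w : ZMod l) ^ (n - (k - 1)) *
        (((w : ZMod l) + 1) ^ k - 1 - (w : ZMod l) ^ k) := by
    intro u
    refine (Fintype.sum_equiv (Equiv.mulLeft u) _ _ fun w => ?_).symm
    simp only [Equiv.coe_mulLeft, mul_inv_rev, Units.val_mul, mul_pow]
    have hw : ((w⁻¹ : (ZMod l)ˣ) : ZMod l) ^ (k - 1) = (w : ZMod l) ^ (n - (k - 1)) := by
      have h1 : (w : ZMod l) ^ (n - (k - 1)) * (w : ZMod l) ^ (k - 1) = 1 := by
        rw [← pow_add, Nat.sub_add_cancel (by omega), hfl]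
      have h2 : ((w⁻¹ : (ZMod l)ˣ) : ZMod l) ^ (k - 1) * (w : ZMod l) ^ (k - 1) = 1 := by
        rw [← mul_pow, ← Units.val_mul, inv_mul_cancel, Units.val_one, one_pow]
      exact mul_right_cancel₀ (pow_ne_zero _ w.ne_zero) (h2.trans h1.symm)
    have hu : ((u⁻¹ : (ZMod l)ˣ) : ZMod l) * ((u⁻¹ : (ZMod l)ˣ) : ZMod l) ^ (k - 1) *
        (u : ZMod l) ^ k = 1 := by
      rw [← pow_succ', show k - 1 + 1 = k by omega, ← mul_pow, ← Units.val_mul, inv_mul_cancel,
        Units.val_one, one_pow]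
    rw [show (u : ZMod l) + u * w = u * ((w : ZMod l) + 1) by ring, mul_pow, hw]
    linear_combination (-((w : ZMod l) ^ (n - (k - 1)) *
      (((w : ZMod l) + 1) ^ k - 1 - (w : ZMod l) ^ k))) * hu
  rw [Finset.sum_congr rfl fun u _ => hstep u, Finset.sum_const, Finset.card_univ,
    ZMod.card_units, ← hn, nsmul_eq_mul,
    show (n : ZMod l) = -1 by
      rw [hn, Nat.cast_sub (Fact.out : l.Prime).one_le, ZMod.natCast_self]; simp]
  simp_rw [mul_sub, Finset.sum_sub_distrib, mul_one, ← pow_add, hpow, add_pow, one_pow, mul_one,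
    Finset.mul_sum]
  rw [Finset.sum_comm, if_neg (fun h => by have := Nat.le_of_dvd (by omega) h; omega),
    if_neg (fun h => by
      have e' : n - (k - 1) + k = n + 1 := by omega
      rw [e', Nat.dvd_add_right dvd_rfl] at h
      have := Nat.le_of_dvd one_pos h
      omega)]
  have hterm : ∀ m ∈ Finset.range (k + 1), ∑ w : (ZMod l)ˣ,
      (w : ZMod l) ^ (n - (k - 1)) * ((w : ZMod l) ^ m * (k.choose m : ZMod l)) =
      if m = k - 1 then -(k : ZMod l) else 0 := by
    intro m hm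
    rw [Finset.mem_range] at hm
    simp_rw [← mul_assoc, ← pow_add]
    rw [← Finset.sum_mul, hpow]
    rcases eq_or_ne m (k - 1) with rfl | hne
    · rw [if_pos rfl, Nat.sub_add_cancel (by omega), if_pos dvd_rfl,
        ← Nat.choose_symm (by omega), show k - (k - 1) = 1 by omega, Nat.choose_one_right,
        neg_one_mul]
    · rw [if_neg hne, if_neg, zero_mul]
      rintro ⟨c, hc⟩
      rcases Nat.lt_or_ge c 1 with hc1 | hc1
      · interval_cases c
        omega
      rcases Nat.lt_or_ge c 2 with hc2 | hc2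
      · interval_cases c
        omega
      · have := Nat.mul_le_mul_left n hc2
        omega
  rw [Finset.sum_congr rfl hterm, Finset.sum_ite_eq', if_pos (Finset.mem_range.mpr (by omega))]
  ring

theorem isUnit_psi_coeff (hres : ∀ a, residue A (ω a) = primeField hA a) {k : ℕ} (hk : 2 ≤ k)
    (hk' : k ≤ l - 1) : IsUnit (coeff₂ ω 1 (k - 1) (fun z => psi ω k (z.1 + z.2))) := by
  rw [← residue_ne_zero_iff_isUnit, coeff₂_apply]
  simp only [psi, map_sum, map_mul, map_pow, map_sub, map_add, pow_one, hres, add_zero, zero_add,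
    map_zero, zero_pow (show k ≠ 0 by omega)]
  rw [show (0 : ResidueField A) = primeField hA 0 from (map_zero _).symm]
  intro h
  have h' : primeField hA (k : ZMod l) = primeField hA 0 := by
    rw [← field_sum_eq hk hk', ← h]
    simp only [map_sum, map_mul, map_pow, map_sub, map_add]
  have h'' := (ZMod.natCast_eq_zero_iff _ _).mp ((primeField hA).injective h')
  have := Nat.le_of_dvd (by omega) h''
  omega

theorem coeffIdeal_le_pow (hres : ∀ a, residue A (ω a) = primeField hA a) :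
    ∀ k, 1 ≤ k → k ≤ l - 1 → coeffIdeal hA hB e ω k ≤ coeffIdeal hA hB e ω 1 ^ k := by
  intro k hk
  induction k, hk using Nat.le_induction with
  | base => intro _; rw [pow_one]
  | succ k hk ih =>
    intro hk' r hr
    have h := coeffIdeal_mul_le hA hB e ω (i := 1) (j := k + 1 - 1) (by omega) hr
    rw [mul_comm r, Ideal.unit_mul_mem_iff_mem _ (isUnit_psi_coeff hA hres (by omega) hk')] at h
    rw [pow_succ']
    exact Ideal.mul_mono le_rfl (ih (by omega)) h

include hB in
theorem exists_act_eq_mul (σ : GalQ) :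
    ∃ χ : (ZMod l)ˣ, ∀ a, act σ (e a) = e ((χ : ZMod l) * a) := by
  set φ : ZMod l →+ ZMod l :=
    e.symm.toAddMonoidHom.comp ((hB.actEquiv σ).toAddMonoidHom.comp e.toAddMonoidHom)
  have hφ : ∀ a : ZMod l, φ a = φ 1 * a := fun a => by
    conv_lhs => rw [← ZMod.natCast_zmod_val a, ← nsmul_one, map_nsmul, nsmul_eq_mul, mul_comm]
    rw [ZMod.natCast_zmod_val]
  have hinj : Function.Injective φ :=
    e.symm.injective.comp ((hB.act_injective σ).comp e.injective)
  have h1 : φ 1 ≠ 0 := fun h => one_ne_zero (hinj (h.trans (map_zero φ).symm))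
  refine ⟨Units.mk0 _ h1, fun a => ?_⟩
  rw [Units.val_mk0, ← hφ]
  exact (e.apply_symm_apply _).symm

/-- Galois acts on the coefficient of a function of the model through the character of the
points. -/
theorem apply_coeff (σ : GalQ) {χ : (ZMod l)ˣ}
    (hχ : ∀ a, act σ (e a) = e ((χ : ZMod l) * a)) (k : ℕ) (f : B)
    (hfix : ∀ u : (ZMod l)ˣ, σ (((ω (u : ZMod l)) ^ k : A) : Qbar) = ((ω (u : ZMod l)) ^ k : A)) :
    σ (coeff ω k (hat hA hB e f) : Qbar) =
      ((ω (χ : ZMod l) ^ k * coeff ω k (hat hA hB e f) : A) : Qbar) := by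
  have hval : ∀ a, σ (hat hA hB e f a : Qbar) = hat hA hB e f ((χ : ZMod l) * a) := fun a => by
    rw [coe_hat, coe_hat, ← hχ, hB.equivariant _ f.2]
  rw [coeff_apply, Finset.mul_sum, AddSubmonoidClass.coe_finsetSum, AddSubmonoidClass.coe_finsetSum,
    map_sum]
  refine Fintype.sum_equiv (Equiv.mulLeft χ) _ _ fun u => ?_
  rw [MulMemClass.coe_mul, map_mul, hfix u⁻¹, AddSubgroupClass.coe_sub, map_sub, hval, hval,
    mul_zero, Equiv.coe_mulLeft]
  have hu : ω (χ : ZMod l) * ω (((χ * u)⁻¹ : (ZMod l)ˣ) : ZMod l) =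
      ω ((u⁻¹ : (ZMod l)ˣ) : ZMod l) := by
    rw [← map_mul, ← Units.val_mul]
    congr 2
    rw [mul_inv_rev, mul_comm χ, inv_mul_cancel_right]
  rw [← hu, mul_pow]
  simp only [MulMemClass.coe_mul, AddSubgroupClass.coe_sub, Units.val_mul]
  ring

theorem coeffIdeal_top_le (hω : ∀ a ≠ 0, ω a ^ (l - 1) = 1)
    (hconn : ∀ x : M, InConnected A B x) :
    coeffIdeal hA hB e ω (l - 1) ≤ Ideal.span {(l : A)} := by
  rw [coeffIdeal, funSpan, Submodule.map_span, Submodule.span_le]
  rintro _ ⟨_, ⟨f, rfl⟩, rfl⟩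
  set E := coeff ω (l - 1) (hat hA hB e f)
  have hone : ∀ u : (ZMod l)ˣ, ω (u : ZMod l) ^ (l - 1) = 1 := fun u => hω _ u.ne_zero
  have hrat : (E : Qbar) ∈ Set.range (algebraMap ℚ Qbar) := by
    rw [InfiniteGalois.mem_range_algebraMap_iff_fixed]
    intro σ
    obtain ⟨χ, hχ⟩ := exists_act_eq_mul hB e σ
    rw [apply_coeff hA hB e σ hχ (l - 1) f fun u => by rw [hone, OneMemClass.coe_one, map_one],
      hone, one_mul]
  obtain ⟨r, hr⟩ := hrat
  have hnu : (E : Qbar) ∈ A.nonunits := by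
    rw [← residue_eq_zero_iff', show E = _ from coeff_apply ω (l - 1) _, map_sum]
    refine Finset.sum_eq_zero fun u _ => ?_
    rw [map_mul, (residue_eq_zero_iff' (hat hA hB e f (u : ZMod l) - hat hA hB e f 0)).mpr ?_,
      mul_zero]
    rw [AddSubgroupClass.coe_sub, coe_hat, coe_hat, map_zero]
    exact hconn _ _ f.2
  rw [← hr, eq_ratCast] at hnu
  obtain ⟨s, hs⟩ := exists_eq_mul_of_ratCast_mem_nonunits hA hnu
  rw [SetLike.mem_coe, Ideal.mem_span_singleton]
  exact ⟨s, Subtype.ext (by rw [← hr, eq_ratCast, hs]; rfl)⟩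

theorem exists_generator :
    ∃ f : B, coeffIdeal hA hB e ω 1 = Ideal.span {coeff ω 1 (hat hA hB e f)} := by
  classical
  obtain ⟨s, hs⟩ := (Module.finite_def.mp hB.finite)
  set v : B → A := fun f => coeff ω 1 (hat hA hB e f)
  have hne : (insert (0 : B) s).Nonempty := Finset.insert_nonempty _ _
  obtain ⟨f, -, hmax⟩ := Finset.exists_max_image (insert (0 : B) s)
    (fun f => A.valuation (v f : Qbar)) hne
  refine ⟨f, le_antisymm ?_ ?_⟩
  · rw [coeffIdeal, funSpan, Submodule.map_span, Submodule.span_le]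
    rintro _ ⟨_, ⟨g, rfl⟩, rfl⟩
    have hg : g ∈ Submodule.span (GaloisRep.ratLocalizedAt l) (s : Set B) := hs ▸ Submodule.mem_top
    rw [SetLike.mem_coe]
    induction hg using Submodule.span_induction with
    | mem x hx =>
      have hle := hmax x (Finset.mem_insert_of_mem hx)
      rw [Ideal.mem_span_singleton]
      change v f ∣ v x
      rcases eq_or_ne (v f : Qbar) 0 with h0 | h0
      · rw [h0, map_zero, le_zero_iff, map_eq_zero] at hle
        exact ⟨0, Subtype.ext (by rw [hle, mul_zero]; rfl)⟩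
      · have hmem : (v x : Qbar) / v f ∈ A := by
          rw [← A.valuation_le_one_iff, map_div₀]
          exact div_le_one_of_le₀ hle zero_le
        exact ⟨⟨_, hmem⟩, Subtype.ext (by
          rw [MulMemClass.coe_mul]; exact (mul_div_cancel₀ _ h0).symm)⟩
    | zero => simp
    | add x y _ _ hx hy => rw [map_add, map_add]; exact add_mem hx hy
    | smul r x _ hx =>
      have : hat hA hB e (r • x) = (⟨_, ratLocalized_mem hA r⟩ : A) • hat hA hB e x := by
        ext a
        rw [coe_hat, Pi.smul_apply, smul_eq_mul, MulMemClass.coe_mul, coe_hat, SetLike.val_smul,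
          Pi.smul_apply, Algebra.smul_def,
          IsScalarTower.algebraMap_apply (GaloisRep.ratLocalizedAt l) ℚ Qbar, eq_ratCast]
        rfl
      rw [this, map_smul]
      exact Submodule.smul_mem _ _ hx
  · rw [Ideal.span_le, Set.singleton_subset_iff]
    exact ⟨_, hat_mem hA hB e f, rfl⟩

theorem coeff_one_ne_zero :
    ∃ f : B, coeff ω 1 (hat hA hB e f) ≠ 0 := by
  classical
  by_contra! h
  set Λ : (M → Qbar) →ₗ[Qbar] Qbar :=
    ∑ u : (ZMod l)ˣ, (ω ((u⁻¹ : (ZMod l)ˣ) : ZMod l) : Qbar) •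
      (LinearMap.proj (R := Qbar) (φ := fun _ : M => Qbar) (e (u : ZMod l)) - LinearMap.proj (e 0))
  have hΛ : Λ = 0 := by
    refine LinearMap.ext_on hB.span_eq_top fun g hg => ?_
    have h' := congrArg (fun a : A => (a : Qbar)) (h ⟨g, hg⟩)
    simp only [coeff_apply, pow_one, AddSubmonoidClass.coe_finsetSum, MulMemClass.coe_mul,
      AddSubgroupClass.coe_sub, coe_hat, ZeroMemClass.coe_zero] at h'
    simpa [Λ, LinearMap.sum_apply, -Units.val_inv_eq_inv_val] using h'
  have h1 : (e 0 : M) ≠ e ((1 : (ZMod l)ˣ) : ZMod l) :=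
    fun h' => one_ne_zero (α := ZMod l) (e.injective h').symm
  have h2 := LinearMap.congr_fun hΛ (Pi.single (e ((1 : (ZMod l)ˣ) : ZMod l)) 1)
  simp only [Λ, LinearMap.sum_apply, LinearMap.smul_apply, LinearMap.sub_apply,
    LinearMap.coe_proj, Function.eval, Pi.single_eq_of_ne h1, sub_zero, smul_eq_mul,
    LinearMap.zero_apply] at h2
  rw [Finset.sum_eq_single (1 : (ZMod l)ˣ) (fun u _ hu => ?_)
    (fun h' => absurd (Finset.mem_univ _) h'), Pi.single_eq_same, mul_one, inv_one, Units.val_one,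
    map_one, OneMemClass.coe_one] at h2
  · exact one_ne_zero h2
  · rw [Pi.single_eq_of_ne (fun h' => hu (Units.ext (e.injective h'))), mul_zero]

end Dichotomy

open Dichotomy

variable {l : ℕ} [Fact l.Prime] {M : Type} [AddCommGroup M] {act : GalQ → M → M}
  {B : Subalgebra (GaloisRep.ratLocalizedAt l) (M → Qbar)} {A : ValuationSubring Qbar}

/-- The degree-one coefficient ideal of a connected model of order `l` is generated by the
coefficient of a function of the model, of valuation `v(l)/(l-1)`. -/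
theorem Dichotomy.exists_coeff_valuation (hA : A.LiesOverPrime l) (hB : IsModelAt l act B)
    (e : ZMod l ≃+ M) (hconn : ∀ x : M, InConnected A B x) {ω : ZMod l →*₀ A}
    (hres : ∀ a, residue A (ω a) = primeField hA a) (hω : ∀ a ≠ 0, ω a ^ (l - 1) = 1) :
    ∃ f : B, A.valuation (coeff ω 1 (hat hA hB e f) : Qbar) ^ (l - 1) =
      A.valuation (l : Qbar) := by
  classical
  have hlp : l.Prime := Fact.out
  obtain ⟨f, hf⟩ := exists_generator hA hB e (ω := ω)
  refine ⟨f, ?_⟩
  set c := coeff ω 1 (hat hA hB e f)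
  have hc : c ≠ 0 := by
    obtain ⟨g, hg⟩ := coeff_one_ne_zero hA hB e (ω := ω)
    intro h0
    have : coeff ω 1 (hat hA hB e g) ∈ coeffIdeal hA hB e ω 1 :=
      ⟨_, hat_mem hA hB e g, rfl⟩
    rw [hf, h0, Ideal.span_singleton_eq_bot.mpr rfl, Submodule.mem_bot] at this
    exact hg this
  have hn : 1 ≤ l - 1 := by have := hlp.two_le; omega
  have hn0 : l - 1 ≠ 0 := by omega
  have hcmem : c ∈ coeffIdeal hA hB e ω 1 := hf ▸ Ideal.mem_span_singleton_self c
  have hnunit : IsUnit ((l - 1 : ℕ) : A) := by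
    rw [← residue_ne_zero_iff_isUnit, map_natCast]
    have := Galois.place_charP_residueField hA hlp
    rw [Ne, CharP.cast_eq_zero_iff (ResidueField A) l]
    exact not_dvd_sub_one
  -- `l ∈ C (l-1)`
  have h1 : (l : A) ∈ coeffIdeal hA hB e ω (l - 1) := by
    have h := coeffIdeal_mul_le hA hB e ω (i := 1) (j := l - 1) one_ne_zero hcmem
    rw [psi_add_coeff hω, mul_neg, neg_mem_iff, hf, Ideal.mem_span_singleton_mul] at h
    obtain ⟨z, hz, hz'⟩ := h
    rw [← Ideal.unit_mul_mem_iff_mem _ hnunit]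
    rwa [mul_left_cancel₀ hc hz'] at hz
  -- `c ^ (l-1) ∈ (l)`
  have h2 : c ^ (l - 1) ∈ Ideal.span {(l : A)} := by
    refine coeffIdeal_top_le hA hB e hω hconn ?_
    have hmem := pow_mem_funSpan hA hB e (smul_psi_mem hA hB e ω one_ne_zero hcmem) (l - 1)
    have hco : coeff ω (l - 1) ((c • psi ω 1) ^ (l - 1)) = ((l - 1 : ℕ) : A) * c ^ (l - 1) := by
      rw [coeff_apply]
      have : ∀ u : (ZMod l)ˣ, ω ((u⁻¹ : (ZMod l)ˣ) : ZMod l) ^ (l - 1) *
          (((c • psi ω 1) ^ (l - 1)) (u : ZMod l) - ((c • psi ω 1) ^ (l - 1)) 0) =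
          c ^ (l - 1) := by
        intro u
        simp only [Pi.pow_apply, Pi.smul_apply, smul_eq_mul, psi, pow_one, map_zero, mul_zero,
          zero_pow hn0, sub_zero, mul_pow, hω _ u.ne_zero, hω _ (Units.ne_zero u⁻¹), mul_one,
          one_mul]
      rw [Finset.sum_congr rfl fun u _ => this u, Finset.sum_const, Finset.card_univ,
        ZMod.card_units, nsmul_eq_mul]
    have : ((l - 1 : ℕ) : A) * c ^ (l - 1) ∈ coeffIdeal hA hB e ω (l - 1) :=
      ⟨_, hmem, hco⟩
    exact (Ideal.unit_mul_mem_iff_mem _ hnunit).mp this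
  -- hence `c` and `ζ - 1` differ by a unit
  have h3 := coeffIdeal_le_pow hA hB e hres (l - 1) hn le_rfl h1
  rw [hf, Ideal.span_singleton_pow, Ideal.mem_span_singleton] at h3
  rw [Ideal.mem_span_singleton] at h2
  rw [← map_pow]
  refine le_antisymm ?_ ?_
  · obtain ⟨s, hs⟩ := h2
    rw [← SubmonoidClass.coe_pow, hs, MulMemClass.coe_mul, map_mul]
    exact mul_le_of_le_one_right' ((A.valuation_le_one_iff _).mpr s.2)
  · obtain ⟨s, hs⟩ := h3
    have hs' := congrArg (fun a : A => (a : Qbar)) hs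
    simp only [MulMemClass.coe_mul, SubmonoidClass.coe_pow] at hs'
    have hl' : ((l : A) : Qbar) = (l : Qbar) := map_natCast A.subtype l
    rw [hl'] at hs'
    rw [hs', map_mul]
    exact mul_le_of_le_one_right' ((A.valuation_le_one_iff _).mpr s.2)

/-- Oort–Tate: on a connected flat model of order `l` inertia acts by the cyclotomic character. -/
theorem act_eq_cyclo_of_connected (hA : A.LiesOverPrime l) (hB : IsModelAt l act B)
    (hcard : Nat.card M = l) (hconn : ∀ x : M, InConnected A B x) {σ : GalQ}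
    (hσ : σ ∈ A.inertiaSubgroupIn ℚ) (x : M) : act σ x = ExtCitation.cycloExp l σ • x := by
  classical
  have hlp : l.Prime := Fact.out
  have hn0 : l - 1 ≠ 0 := by have := hlp.two_le; omega
  let e : ZMod l ≃+ M := (ZMod.ringEquivCongr hcard.symm).toAddEquiv.trans
    (zmodAddCyclicAddEquiv (isAddCyclic_of_prime_card hcard))
  obtain ⟨ω, hres, hω, hinert⟩ := exists_teichmuller hA
  obtain ⟨f, hval⟩ := exists_coeff_valuation hA hB e hconn hres hω
  set c := coeff ω 1 (hat hA hB e f)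
  have : NeZero l := ⟨hlp.ne_zero⟩
  obtain ⟨ζ, hζ⟩ := HasEnoughRootsOfUnity.exists_primitiveRoot Qbar l
  obtain ⟨π, hπ0, hπval, g, hg, hgres⟩ : ∃ π : Qbar, π ≠ 0 ∧
      A.valuation π ^ (l - 1) = A.valuation (l : Qbar) ∧ ∃ g : A, σ π = π * g ∧
        residue A g = primeField hA (ExtCitation.cycloExp l σ : ZMod l) :=
    ⟨ζ - 1, sub_ne_zero.mpr (hζ.ne_one hlp.one_lt), valuation_zeta_sub_one hA hζ,
      exists_apply_zeta_sub_one hA hζ σ⟩
  have heq : A.valuation (c : Qbar) = A.valuation π :=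
    pow_left_inj₀ zero_le zero_le hn0 |>.mp (hval.trans hπval.symm)
  have hu1 : A.valuation ((c : Qbar) / π) = 1 := by
    rw [map_div₀, heq, div_self ((A.valuation.ne_zero_iff).mpr hπ0)]
  set u : A := ⟨(c : Qbar) / π, (A.valuation_le_one_iff _).mp hu1.le⟩
  have hures : residue A u ≠ 0 := fun h =>
    (lt_irrefl (1 : _)) (hu1 ▸ A.mem_nonunits_iff.mp ((residue_eq_zero_iff' u).mp h))
  obtain ⟨χ, hχ⟩ := exists_act_eq_mul hB e σ
  have hσc : σ (c : Qbar) = ((ω (χ : ZMod l) * c : A) : Qbar) := by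
    have h := apply_coeff hA hB e σ hχ 1 f fun v => by
      rw [pow_one]
      exact hinert σ hσ _
    rwa [pow_one] at h
  have hσu : σ (u : Qbar) ∈ A :=
    Galois.decomposition_apply_mem (Galois.inertia_le_decomposition A hσ) u.2
  have hrel : (⟨σ (u : Qbar), hσu⟩ : A) * g = ω (χ : ZMod l) * u := by
    apply Subtype.ext
    simp only [MulMemClass.coe_mul]
    change σ ((c : Qbar) / π) * g = (ω (χ : ZMod l) : Qbar) * ((c : Qbar) / π)
    rw [map_div₀, hσc, hg, MulMemClass.coe_mul]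
    have hg0 : (g : Qbar) ≠ 0 := fun h0 => by
      rw [h0, mul_zero] at hg
      exact hπ0 (σ.injective (hg.trans (map_zero σ).symm))
    field_simp
  have hru : residue A (⟨σ (u : Qbar), hσu⟩ : A) = residue A u :=
    (residue_eq_iff _ _).mpr (Galois.inertia_sub_mem_nonunits hσ u.2)
  have hfin := congrArg (residue A) hrel
  rw [map_mul, map_mul, hru, hres, hgres, mul_comm] at hfin
  have hcy : ((ExtCitation.cycloExp l σ : ℕ) : ZMod l) = χ :=
    (primeField hA).injective (mul_right_cancel₀ hures hfin)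
  obtain ⟨a, rfl⟩ := e.surjective x
  rw [hχ, ← map_nsmul, nsmul_eq_mul, hcy]

/-- A flat model of order `l`: at a place over `l` it is étale or it is connected with inertia
acting by the cyclotomic character. -/
theorem orderL_dichotomy (hA : A.LiesOverPrime l) (hB : IsModelAt l act B)
    (hcard : Nat.card M = l) :
    (connPart hA hB = ⊥ ∧ ∀ σ ∈ A.inertiaSubgroupIn ℚ, ∀ x, act σ x = x) ∨
      (connPart hA hB = ⊤ ∧
        ∀ σ ∈ A.inertiaSubgroupIn ℚ, ∀ x, act σ x = ExtCitation.cycloExp l σ • x) := by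
  have : Finite M := Nat.finite_of_card_ne_zero (hcard ▸ (Fact.out : l.Prime).ne_zero)
  have hprime : Fact (Nat.card M).Prime := ⟨hcard ▸ Fact.out⟩
  rcases (connPart hA hB).eq_bot_or_eq_top_of_prime_card with h | h
  · refine Or.inl ⟨h, fun σ hσ x => sub_eq_zero.mp ?_⟩
    simpa [h] using act_sub_mem_connPart hA hB hσ x
  · refine Or.inr ⟨h, fun σ hσ x => act_eq_cyclo_of_connected hA hB hcard (fun y => ?_) hσ x⟩
    exact (mem_connPart_iff hA hB).mp (h ▸ AddSubgroup.mem_top y)

end Fermat.Agent.FFG.OrderL
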