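import Fermat.Agent.FFG.OrderL.Dichotomy
import Mathlib.GroupTheory.QuotientGroup.Basic

/-!
# The connected part of a model with constituents of order `l`

`M` has a flat model over `ℤ_(l)`, `l` odd, `A` is a place over `l`.
* On a step `S ≤ T` of index `l` of Galois-stable subgroups inertia acts either trivially, and then
  the connected part of `T` lies in `S`, or by the cyclotomic character, and then the connected
  part of `T` surjects to `T/S`.
* For a filtration of `M` by such steps the connected part has order `l` to the number of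
  cyclotomic steps.
-/

set_option autoImplicit false

noncomputable section

namespace Fermat.Agent.FFG.OrderL

open Fermat.Agent.Galois (Qbar GalQ)

variable {l : ℕ} [Fact l.Prime] {M : Type} [AddCommGroup M] {act : GalQ → M → M}
  {B : Subalgebra (GaloisRep.ratLocalizedAt l) (M → Qbar)} {A : ValuationSubring Qbar}

omit [Fact l.Prime] in
/-- A subgroup stable under the whole Galois group. -/
def IsStableSubgroup (act : GalQ → M → M) (S : AddSubgroup M) : Prop :=
  ∀ σ, ∀ x ∈ S, act σ x ∈ S

omit [Fact l.Prime] in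
/-- Inertia acts on `T/S` trivially. -/
def InertiaTrivialOn (act : GalQ → M → M) (A : ValuationSubring Qbar) (S T : AddSubgroup M) :
    Prop :=
  ∀ σ ∈ A.inertiaSubgroupIn ℚ, ∀ x ∈ T, act σ x - x ∈ S

omit [Fact l.Prime] in
/-- Inertia acts on `T/S` by the cyclotomic character modulo `l`. -/
def InertiaCycloOn (l : ℕ) [Fact l.Prime] (act : GalQ → M → M) (A : ValuationSubring Qbar)
    (S T : AddSubgroup M) : Prop :=
  ∀ σ ∈ A.inertiaSubgroupIn ℚ, ∀ x ∈ T, act σ x - ExtCitation.cycloExp l σ • x ∈ S

/-- For odd `l` a step of index `l` is not both trivial and cyclotomic. -/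
theorem not_trivial_and_cyclo (hA : A.LiesOverPrime l) (hl2 : l ≠ 2) {S T : AddSubgroup M}
    (hST : S ≤ T) (hidx : Nat.card T = l * Nat.card S) [Finite M]
    (h : InertiaCycloOn l act A S T) : ¬ InertiaTrivialOn act A S T := by
  intro htriv
  have hlp : l.Prime := Fact.out
  obtain ⟨σ, hσ, hne⟩ := exists_inertia_cycloExp_ne_one hA hl2
  have key : ∀ x ∈ T, x ∈ S := by
    intro x hx
    have h1 := S.sub_mem (htriv σ hσ x hx) (h σ hσ x hx)
    rw [sub_sub_sub_cancel_left] at h1
    have hl : l • x ∈ S := by
      set q : T ⧸ S.addSubgroupOf T := QuotientAddGroup.mk (⟨x, hx⟩ : T)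
      have hcard : Nat.card (T ⧸ S.addSubgroupOf T) = l := by
        have := AddSubgroup.card_eq_card_quotient_mul_card_addSubgroup (S.addSubgroupOf T)
        rw [hidx, Nat.card_congr (AddSubgroup.addSubgroupOfEquivOfLe hST).toEquiv] at this
        exact (Nat.eq_of_mul_eq_mul_right Nat.card_pos this).symm
      have h0 : l • q = 0 := by rw [← hcard]; exact card_nsmul_eq_zero'
      rw [← QuotientAddGroup.mk_nsmul, QuotientAddGroup.eq_zero_iff] at h0
      simpa [AddSubgroup.mem_addSubgroupOf] using h0
    set c := ExtCitation.cycloExp l σ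
    have hcop : IsCoprime ((c : ℤ) - 1) (l : ℤ) := by
      rw [isCoprime_comm, (Nat.prime_iff_prime_int.mp hlp).coprime_iff_not_dvd]
      intro hd
      apply hne
      rw [← ZMod.intCast_zmod_eq_zero_iff_dvd] at hd
      push_cast at hd
      exact sub_eq_zero.mp hd
    obtain ⟨a, b, hab⟩ := hcop
    have hx' : x = a • (((c : ℤ) - 1) • x) + b • ((l : ℤ) • x) := by
      rw [smul_smul, smul_smul, ← add_smul, hab, one_smul]
    rw [hx']
    refine S.add_mem (S.zsmul_mem ?_ a) (S.zsmul_mem (by rwa [natCast_zsmul]) b)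
    rwa [sub_smul, one_smul, natCast_zsmul]
  have : Nat.card T ≤ Nat.card S := AddSubgroup.card_le_of_le fun x hx => key x hx
  rw [hidx] at this
  have h2 := Nat.mul_le_mul_right (Nat.card S) hlp.two_le
  have : 0 < Nat.card S := Nat.card_pos
  omega

/-- A Galois-stable step of index `l`: inertia is trivial and the connected part of the upper
group lies in the lower one, or inertia is cyclotomic. -/
theorem step_dichotomy (hA : A.LiesOverPrime l) (hB : IsModelAt l act B) {S T : AddSubgroup M}
    (hS : IsStableSubgroup act S) (hT : IsStableSubgroup act T) (hST : S ≤ T)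
    (hidx : Nat.card T = l * Nat.card S) :
    (InertiaTrivialOn act A S T ∧ connPart hA hB ⊓ T ≤ S) ∨ InertiaCycloOn l act A S T := by
  have := hB.finite_source
  set S' : AddSubgroup T := S.addSubgroupOf T
  let actT : GalQ → T → T := fun σ x => ⟨act σ x.1, hT σ x.1 x.2⟩
  have hBT : IsModelAt l actT (B.map (pull (GaloisRep.ratLocalizedAt l) Qbar T.subtype)) :=
    hB.map_of_injective (actN := actT) T.subtype Subtype.val_injective fun σ x => rfl
  let tau : GalQ → T →+ T := fun σ =>
    AddMonoidHom.mk' (actT σ) fun x y => Subtype.ext (hB.act_add σ x.1 y.1)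
  let actQ : GalQ → T ⧸ S' → T ⧸ S' := fun σ =>
    QuotientAddGroup.map S' S' (tau σ) fun x hx => hS σ x.1 hx
  have hBQ := hBT.comap_of_surjective (actQ := actQ) (QuotientAddGroup.mk' S')
    (QuotientAddGroup.mk'_surjective S') fun σ x => rfl
  have hcard : Nat.card (T ⧸ S') = l := by
    have := AddSubgroup.card_eq_card_quotient_mul_card_addSubgroup S'
    rw [hidx, Nat.card_congr (AddSubgroup.addSubgroupOfEquivOfLe hST).toEquiv] at this
    exact (Nat.eq_of_mul_eq_mul_right Nat.card_pos this).symm
  rcases orderL_dichotomy hA hBQ hcard with ⟨hbot, htriv⟩ | ⟨-, hcyc⟩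
  · refine Or.inl ⟨fun σ hσ x hx => ?_, fun x hx => ?_⟩
    · have h := htriv σ hσ (QuotientAddGroup.mk' S' ⟨x, hx⟩)
      rw [← sub_eq_zero] at h
      exact (QuotientAddGroup.eq_zero_iff (actT σ ⟨x, hx⟩ - ⟨x, hx⟩)).mp ((map_sub (QuotientAddGroup.mk' S') _ _).trans h)
    · have h1 : (⟨x, hx.2⟩ : T) ∈ connPart hA hBT := by
        rw [connPart_comap hA hB T.subtype hBT]
        exact hx.1
      have h2 := map_connPart_le hA hBT (QuotientAddGroup.mk' S') hBQ ⟨_, h1, rfl⟩
      rw [hbot, AddSubgroup.mem_bot] at h2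
      exact (QuotientAddGroup.eq_zero_iff (⟨x, hx.2⟩ : T)).mp h2
  · refine Or.inr fun σ hσ x hx => ?_
    have h := hcyc σ hσ (QuotientAddGroup.mk' S' ⟨x, hx⟩)
    rw [← sub_eq_zero, ← map_nsmul] at h
    exact (QuotientAddGroup.eq_zero_iff
      (actT σ ⟨x, hx⟩ - ExtCitation.cycloExp l σ • (⟨x, hx⟩ : T))).mp
      ((map_sub (QuotientAddGroup.mk' S') _ _).trans h)

/-- On a trivial step the connected part does not grow. -/
theorem connPart_inf_eq_of_trivial (hA : A.LiesOverPrime l) (hl2 : l ≠ 2)
    (hB : IsModelAt l act B) {S T : AddSubgroup M} (hS : IsStableSubgroup act S)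
    (hT : IsStableSubgroup act T) (hST : S ≤ T) (hidx : Nat.card T = l * Nat.card S)
    (htriv : InertiaTrivialOn act A S T) : connPart hA hB ⊓ T = connPart hA hB ⊓ S := by
  have := hB.finite_source
  rcases step_dichotomy hA hB hS hT hST hidx with ⟨-, h⟩ | h
  · exact le_antisymm (le_inf inf_le_left h) (inf_le_inf_left _ hST)
  · exact absurd htriv (not_trivial_and_cyclo hA hl2 hST hidx h)

/-- On a cyclotomic step the connected part surjects. -/
theorem connPart_inf_not_le_of_cyclo (hA : A.LiesOverPrime l) (hl2 : l ≠ 2)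
    (hB : IsModelAt l act B) {S T : AddSubgroup M} (hT : IsStableSubgroup act T) (hST : S ≤ T)
    (hidx : Nat.card T = l * Nat.card S) (hcyc : InertiaCycloOn l act A S T) :
    ¬ connPart hA hB ⊓ T ≤ S := by
  have := hB.finite_source
  refine fun hle => not_trivial_and_cyclo hA hl2 hST hidx hcyc fun σ hσ x hx => ?_
  exact hle ⟨act_sub_mem_connPart hA hB hσ x, T.sub_mem (hT σ x hx) hx⟩

theorem card_connPart_inf_of_cyclo (hA : A.LiesOverPrime l) (hl2 : l ≠ 2)
    (hB : IsModelAt l act B) {S T : AddSubgroup M} (hT : IsStableSubgroup act T) (hST : S ≤ T)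
    (hidx : Nat.card T = l * Nat.card S) (hcyc : InertiaCycloOn l act A S T) :
    Nat.card ↥(connPart hA hB ⊓ T) = l * Nat.card ↥(connPart hA hB ⊓ S) := by
  have := hB.finite_source
  set C := connPart hA hB ⊓ T
  have hnle := connPart_inf_not_le_of_cyclo hA hl2 hB hT hST hidx hcyc
  have hrel : S.relIndex C ∣ S.relIndex T :=
    ⟨(C ⊔ S).relIndex T, by
      rw [← AddSubgroup.relIndex_sup_right C S,
        AddSubgroup.relIndex_mul_relIndex _ _ _ le_sup_right (sup_le inf_le_right hST)]⟩
  have hTidx : S.relIndex T = l := by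
    have := AddSubgroup.relIndex_mul_relIndex ⊥ S T bot_le hST
    rw [AddSubgroup.relIndex_bot_left, AddSubgroup.relIndex_bot_left, hidx, mul_comm l] at this
    exact Nat.eq_of_mul_eq_mul_left Nat.card_pos this
  rw [hTidx] at hrel
  have h1 : S.relIndex C = l := by
    rcases (Nat.dvd_prime (Fact.out : l.Prime)).mp hrel with h | h
    · exact absurd (AddSubgroup.relIndex_eq_one.mp h) hnle
    · exact h
  have h2 : connPart hA hB ⊓ S = S ⊓ C := by
    rw [show S ⊓ C = connPart hA hB ⊓ (S ⊓ T) by
      simp only [C]; rw [inf_left_comm], inf_eq_left.mpr hST]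
  have h3 := AddSubgroup.relIndex_mul_relIndex ⊥ (S ⊓ C) C bot_le inf_le_right
  rw [AddSubgroup.relIndex_bot_left, AddSubgroup.relIndex_bot_left,
    AddSubgroup.inf_relIndex_right, h1] at h3
  rw [h2, ← h3, mul_comm]

/-- The connected part of a module filtered by steps of index `l`, each trivial or cyclotomic on
inertia, has order `l` to the number of cyclotomic steps. -/
theorem card_connPart_of_filtration (hA : A.LiesOverPrime l) (hl2 : l ≠ 2)
    (hB : IsModelAt l act B) (F : ℕ → AddSubgroup M) (m : ℕ) (h0 : F 0 = ⊥) (hm : F m = ⊤)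
    (hmono : ∀ i < m, F i ≤ F (i + 1)) (hstable : ∀ i, IsStableSubgroup act (F i))
    (hidx : ∀ i < m, Nat.card (F (i + 1)) = l * Nat.card (F i))
    (isCyc : ℕ → Prop) [DecidablePred isCyc]
    (hcyc : ∀ i < m, isCyc i → InertiaCycloOn l act A (F i) (F (i + 1)))
    (htriv : ∀ i < m, ¬ isCyc i → InertiaTrivialOn act A (F i) (F (i + 1))) :
    Nat.card (connPart hA hB) = l ^ ((Finset.range m).filter isCyc).card := by
  have key : ∀ j ≤ m, Nat.card ↥(connPart hA hB ⊓ F j) =
      l ^ ((Finset.range j).filter isCyc).card := by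
    intro j hj
    induction j with
    | zero => simp [h0]
    | succ j ih =>
      have hjm : j < m := hj
      rw [Finset.range_add_one, Finset.filter_insert]
      by_cases h : isCyc j
      · rw [if_pos h, Finset.card_insert_of_notMem (by simp), pow_succ', ← ih hjm.le]
        exact card_connPart_inf_of_cyclo hA hl2 hB (hstable _) (hmono j hjm) (hidx j hjm)
          (hcyc j hjm h)
      · rw [if_neg h, connPart_inf_eq_of_trivial hA hl2 hB (hstable _) (hstable _) (hmono j hjm)
          (hidx j hjm) (htriv j hjm h), ih hjm.le]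
  have := key m le_rfl
  rwa [hm, inf_top_eq] at this

/-- On a step of index `l` inside the connected part inertia acts by the cyclotomic character. -/
theorem inertiaCycloOn_of_le_connPart (hA : A.LiesOverPrime l) (hB : IsModelAt l act B)
    {S T : AddSubgroup M} (hS : IsStableSubgroup act S) (hT : IsStableSubgroup act T)
    (hST : S ≤ T) (hidx : Nat.card T = l * Nat.card S) (hle : T ≤ connPart hA hB) :
    InertiaCycloOn l act A S T := by
  have := hB.finite_source
  rcases step_dichotomy hA hB hS hT hST hidx with ⟨-, h⟩ | h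
  · have hTS : T ≤ S := fun x hx => h ⟨hle hx, hx⟩
    have hc := AddSubgroup.card_le_of_le hTS
    rw [hidx] at hc
    have h2 := Nat.mul_le_mul_right (Nat.card S) (Fact.out : l.Prime).two_le
    have : 0 < Nat.card S := Nat.card_pos
    omega
  · exact h

/-- A stable subgroup of order `l` with cyclotomic inertia lies in the connected part. -/
theorem le_connPart_of_cyclo (hA : A.LiesOverPrime l) (hl2 : l ≠ 2) (hB : IsModelAt l act B)
    {T : AddSubgroup M} (hT : IsStableSubgroup act T) (hcard : Nat.card T = l)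
    (hcyc : InertiaCycloOn l act A ⊥ T) : T ≤ connPart hA hB := by
  have := hB.finite_source
  have h := card_connPart_inf_of_cyclo hA hl2 hB hT bot_le (by simp [hcard]) hcyc
  rw [inf_bot_eq] at h
  have h2 : connPart hA hB ⊓ T = T :=
    AddSubgroup.eq_of_le_of_card_ge inf_le_right (by rw [h, hcard]; simp)
  exact h2 ▸ inf_le_left

end Fermat.Agent.FFG.OrderL
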